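import Mathlib

/-!
# The Picard group by cocycles

`Pic X` is the group of cocycles of units on open covers up to refinement and coboundary, with
pull-backs `Pic.map`; a class is zero exactly when it has a section by units (`Pic.mk_eq_zero_iff`).
-/

set_option autoImplicit false

universe u

noncomputable section

open CategoryTheory AlgebraicGeometry TopologicalSpace

namespace Fermat.Agent.AbVar

/-! ### Restriction and gluing of sections and units -/

/-- Restriction of functions. -/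
abbrev res (X : Scheme.{u}) {W W' : X.Opens} (h : W' ≤ W) : Γ(X, W) →+* Γ(X, W') :=
  (X.presheaf.map (homOfLE h).op).hom

section Res

variable {X : Scheme.{u}}

/-- Restriction of functions is transitive. -/
theorem res_res {W W' W'' : X.Opens} (h : W' ≤ W) (h' : W'' ≤ W') (s : Γ(X, W)) :
    res X h' (res X h s) = res X (h'.trans h) s := by
  simp only [res]
  rw [← ConcreteCategory.comp_apply, ← Functor.map_comp, ← op_comp, homOfLE_comp]

theorem res_self {W : X.Opens} (h : W ≤ W) (s : Γ(X, W)) : res X h s = s := by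
  simp only [res]
  rw [show (homOfLE h).op = 𝟙 (Opposite.op W) from Subsingleton.elim _ _, X.presheaf.map_id]
  rfl

/-- Functions agreeing on a cover are equal. -/
theorem res_ext {W : X.Opens} {ι : Type*} (U : ι → X.Opens) (hU : ∀ i, U i ≤ W)
    (hcov : W ≤ ⨆ i, U i) (s t : Γ(X, W)) (h : ∀ i, res X (hU i) s = res X (hU i) t) : s = t :=
  X.sheaf.eq_of_locally_eq' U W (fun i => homOfLE (hU i)) hcov s t h

/-- Restriction of invertible functions. -/
def ures (X : Scheme.{u}) {W W' : X.Opens} (h : W' ≤ W) : Γ(X, W)ˣ →* Γ(X, W')ˣ :=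
  Units.map (res X h).toMonoidHom

@[simp]
theorem val_ures {W W' : X.Opens} (h : W' ≤ W) (s : Γ(X, W)ˣ) :
    (ures X h s : Γ(X, W')) = res X h (s : Γ(X, W)) := rfl

theorem ures_ures {W W' W'' : X.Opens} (h : W' ≤ W) (h' : W'' ≤ W') (s : Γ(X, W)ˣ) :
    ures X h' (ures X h s) = ures X (h'.trans h) s :=
  Units.ext (res_res h h' s.1)

theorem ures_self {W : X.Opens} (h : W ≤ W) (s : Γ(X, W)ˣ) : ures X h s = s :=
  Units.ext (res_self h s.1)

theorem ures_ext {W : X.Opens} {ι : Type*} (U : ι → X.Opens) (hU : ∀ i, U i ≤ W)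
    (hcov : W ≤ ⨆ i, U i) (s t : Γ(X, W)ˣ) (h : ∀ i, ures X (hU i) s = ures X (hU i) t) : s = t :=
  Units.ext (res_ext U hU hcov _ _ fun i => congrArg Units.val (h i))

/-- Compatible functions glue. -/
theorem exists_res_glue {W : X.Opens} {ι : Type*} (U : ι → X.Opens) (hU : ∀ i, U i ≤ W)
    (hcov : W ≤ ⨆ i, U i) (s : ∀ i, Γ(X, U i))
    (h : ∀ i j, res X (inf_le_left : U i ⊓ U j ≤ U i) (s i) =
      res X (inf_le_right : U i ⊓ U j ≤ U j) (s j)) :
    ∃ t : Γ(X, W), ∀ i, res X (hU i) t = s i := by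
  obtain ⟨t, ht, -⟩ := X.sheaf.existsUnique_gluing' U W (fun i => homOfLE (hU i)) hcov s
    fun i j => h i j
  exact ⟨t, ht⟩

/-- Compatible invertible functions glue. -/
theorem exists_ures_glue {W : X.Opens} {ι : Type*} (U : ι → X.Opens) (hU : ∀ i, U i ≤ W)
    (hcov : W ≤ ⨆ i, U i) (s : ∀ i, Γ(X, U i)ˣ)
    (h : ∀ i j, ures X (inf_le_left : U i ⊓ U j ≤ U i) (s i) =
      ures X (inf_le_right : U i ⊓ U j ≤ U j) (s j)) :
    ∃ t : Γ(X, W)ˣ, ∀ i, ures X (hU i) t = s i := by
  obtain ⟨t, ht⟩ := exists_res_glue U hU hcov (fun i => (s i : Γ(X, U i))) fun i j =>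
    congrArg Units.val (h i j)
  obtain ⟨t', ht'⟩ := exists_res_glue U hU hcov (fun i => ((s i)⁻¹ : Γ(X, U i)ˣ).1) fun i j => by
    have := congrArg (fun z => (z⁻¹ : Γ(X, U i ⊓ U j)ˣ).1) (h i j)
    simpa only [← map_inv, val_ures] using this
  refine ⟨⟨t, t', res_ext U hU hcov _ _ fun i => ?_, res_ext U hU hcov _ _ fun i => ?_⟩,
    fun i => Units.ext (ht i)⟩
  · rw [map_mul, ht, ht', map_one]; exact (s i).mul_inv
  · rw [map_mul, ht, ht', map_one]; exact (s i).inv_mul

end Res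

/-! ### Cocycles of units on open covers -/

/-- A cocycle of units on an open cover. -/
structure Coc (X : Scheme.{u}) where
  /-- the indices -/
  ι : Type u
  /-- the cover -/
  U : ι → X.Opens
  covers : (⨆ a, U a) = ⊤
  /-- the transition functions -/
  g : ∀ a b, Γ(X, U a ⊓ U b)ˣ
  cocycle : ∀ (a b c : ι) (W : X.Opens) (hab : W ≤ U a ⊓ U b) (hbc : W ≤ U b ⊓ U c)
    (hac : W ≤ U a ⊓ U c),
    res X hab (g a b : Γ(X, U a ⊓ U b)) * res X hbc (g b c : Γ(X, U b ⊓ U c)) =
      res X hac (g a c : Γ(X, U a ⊓ U c))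

namespace Coc

variable {X Y : Scheme.{u}}

/-- Two cocycles are equivalent. -/
def Equiv (c d : Coc X) : Prop :=
  ∃ w : ∀ a b, Γ(X, c.U a ⊓ d.U b)ˣ,
    ∀ (a a' : c.ι) (b b' : d.ι) (W : X.Opens) (ha : W ≤ c.U a ⊓ c.U a') (hb : W ≤ d.U b ⊓ d.U b')
      (hw : W ≤ c.U a ⊓ d.U b) (hw' : W ≤ c.U a' ⊓ d.U b'),
      res X ha (c.g a a' : Γ(X, c.U a ⊓ c.U a')) * res X hw' (w a' b' : Γ(X, c.U a' ⊓ d.U b')) =
        res X hw (w a b : Γ(X, c.U a ⊓ d.U b)) * res X hb (d.g b b' : Γ(X, d.U b ⊓ d.U b'))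

/-- The cocycle identity for the units, on any smaller open set. -/
theorem ures_cocycle (c : Coc X) (a b e : c.ι) {W : X.Opens} (hab : W ≤ c.U a ⊓ c.U b)
    (hbe : W ≤ c.U b ⊓ c.U e) (hae : W ≤ c.U a ⊓ c.U e) :
    ures X hab (c.g a b) * ures X hbe (c.g b e) = ures X hae (c.g a e) :=
  Units.ext (c.cocycle a b e W hab hbe hae)

/-- The transition function from an open set to itself is `1`. -/
theorem ures_g_self (c : Coc X) (a : c.ι) {W : X.Opens} (h : W ≤ c.U a ⊓ c.U a) :
    ures X h (c.g a a) = 1 :=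
  mul_eq_left.1 (c.ures_cocycle a a a h h h)

theorem equiv_iff {c d : Coc X} : c.Equiv d ↔ ∃ w : ∀ a b, Γ(X, c.U a ⊓ d.U b)ˣ,
    ∀ (a a' : c.ι) (b b' : d.ι) (W : X.Opens) (ha : W ≤ c.U a ⊓ c.U a') (hb : W ≤ d.U b ⊓ d.U b')
      (hw : W ≤ c.U a ⊓ d.U b) (hw' : W ≤ c.U a' ⊓ d.U b'),
      ures X ha (c.g a a') * ures X hw' (w a' b') = ures X hw (w a b) * ures X hb (d.g b b') :=
  ⟨fun ⟨w, h⟩ => ⟨w, fun a a' b b' W ha hb hw hw' => Units.ext (h a a' b b' W ha hb hw hw')⟩,
    fun ⟨w, h⟩ => ⟨w, fun a a' b b' W ha hb hw hw' =>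
      congrArg Units.val (h a a' b b' W ha hb hw hw')⟩⟩

/-- A cocycle is equivalent to its restriction along a refinement of its cover. -/
theorem equiv_of_refine (c d : Coc X) (σ : d.ι → c.ι) (hU : ∀ b, d.U b ≤ c.U (σ b))
    (hg : ∀ b b' (W : X.Opens) (h : W ≤ d.U b ⊓ d.U b') (h' : W ≤ c.U (σ b) ⊓ c.U (σ b')),
      ures X h (d.g b b') = ures X h' (c.g (σ b) (σ b'))) : c.Equiv d := by
  refine equiv_iff.2 ⟨fun a b => ures X (inf_le_inf_left _ (hU b)) (c.g a (σ b)),
    fun a a' b b' W ha hb hw hw' => ?_⟩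
  have hW : W ≤ c.U a ⊓ c.U (σ b') :=
    le_inf (ha.trans inf_le_left) (hw'.trans (inf_le_inf_left _ (hU b'))
      |>.trans inf_le_right)
  rw [ures_ures, ures_ures, hg b b' W hb (hb.trans (inf_le_inf (hU b) (hU b'))),
    c.ures_cocycle a a' (σ b') ha _ hW, c.ures_cocycle a (σ b) (σ b') _ _ hW]

theorem equivalence (X : Scheme.{u}) : Equivalence (Coc.Equiv (X := X)) where
  refl c := c.equiv_of_refine c (fun a => a) (fun _ => le_rfl) fun _ _ _ _ _ => rfl
  symm := by
    intro c d h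
    -- Symmetry: invert the comparison units.
    obtain ⟨w, hw⟩ := equiv_iff.1 h
    refine equiv_iff.2 ⟨fun b a => ures X (inf_comm _ _).le (w a b)⁻¹,
      fun b b' a a' W hb ha h1 h2 => ?_⟩
    simp only [map_inv, ures_ures]
    rw [eq_inv_mul_iff_mul_eq, ← mul_assoc, mul_inv_eq_iff_eq_mul]
    exact (hw a a' b b' W ha hb _ _).symm
  trans := by
    intro c d e h h'
    obtain ⟨w, hw⟩ := equiv_iff.1 h
    obtain ⟨v, hv⟩ := equiv_iff.1 h'
    -- Transitivity: on each double intersection the products `w * v` glue over the middle cover.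
    have key : ∀ a l, ∃ z : Γ(X, c.U a ⊓ e.U l)ˣ, ∀ (b : d.ι) (W : X.Opens) (h1 : W ≤ c.U a ⊓ e.U l)
        (h2 : W ≤ c.U a ⊓ d.U b) (h3 : W ≤ d.U b ⊓ e.U l),
        ures X h1 z = ures X h2 (w a b) * ures X h3 (v b l) := by
      intro a l
      obtain ⟨z, hz⟩ := exists_ures_glue (fun b => c.U a ⊓ e.U l ⊓ d.U b) (fun _ => inf_le_left)
        (by rw [← inf_iSup_eq, d.covers, inf_top_eq])
        (fun b => ures X (inf_le_inf_right _ inf_le_left) (w a b) *
          ures X (le_inf inf_le_right (inf_le_left.trans inf_le_right)) (v b l)) fun b b' => by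
        simp only [map_mul, ures_ures]
        generalize_proofs p₁ p₂ p₃ p₄
        have hdd := le_inf (p₁.trans inf_le_right) (p₃.trans inf_le_right)
        have e1 := hw a a b b' _ (le_inf (p₁.trans inf_le_left) (p₁.trans inf_le_left)) hdd p₁ p₃
        rw [c.ures_g_self, one_mul] at e1
        have e2 := hv b b' l l _ hdd (le_inf (p₂.trans inf_le_right) (p₂.trans inf_le_right)) p₂ p₄
        rw [e.ures_g_self, mul_one] at e2
        rw [e1, mul_assoc, e2]
      refine ⟨z, fun b W h1 h2 h3 => ?_⟩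
      have hW : W ≤ c.U a ⊓ e.U l ⊓ d.U b := le_inf h1 (h2.trans inf_le_right)
      have := congrArg (ures X hW) (hz b)
      simpa only [map_mul, ures_ures] using this
    choose z hz using key
    -- The glued units compare the cocycles, as one checks on each member of the middle cover.
    refine equiv_iff.2 ⟨z, fun a a' l l' W ha hl h1 h2 => ?_⟩
    refine ures_ext (fun b => W ⊓ d.U b) (fun _ => inf_le_left)
      (by rw [← inf_iSup_eq, d.covers, inf_top_eq]) _ _ fun b => ?_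
    have k : W ⊓ d.U b ≤ d.U b := inf_le_right
    have ka : W ⊓ d.U b ≤ c.U a := inf_le_left.trans (ha.trans inf_le_left)
    have ka' : W ⊓ d.U b ≤ c.U a' := inf_le_left.trans (ha.trans inf_le_right)
    have kl : W ⊓ d.U b ≤ e.U l := inf_le_left.trans (hl.trans inf_le_left)
    have kl' : W ⊓ d.U b ≤ e.U l' := inf_le_left.trans (hl.trans inf_le_right)
    simp only [map_mul, ures_ures]
    rw [hz a' l' b _ _ (le_inf ka' k) (le_inf k kl'), hz a l b _ _ (le_inf ka k) (le_inf k kl),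
      ← mul_assoc,
      hw a a' b b _ _ (le_inf k k) (le_inf ka k) (le_inf ka' k), d.ures_g_self, mul_one, mul_assoc]
    congr 1
    have e2 := hv b b l l' _ (le_inf k k) (le_inf kl kl') (le_inf k kl) (le_inf k kl')
    rw [d.ures_g_self, one_mul] at e2
    exact e2

instance setoid (X : Scheme.{u}) : Setoid (Coc X) := ⟨Coc.Equiv, equivalence X⟩

/-- The trivial cocycle. -/
@[reducible]
def trivial (X : Scheme.{u}) : Coc X where
  ι := PUnit
  U _ := ⊤
  covers := iSup_const
  g _ _ := 1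
  cocycle _ _ _ _ _ _ _ := by simp

/-- The product of two cocycles, on the product cover. -/
@[reducible]
def mul (c d : Coc X) : Coc X where
  ι := c.ι × d.ι
  U x := c.U x.1 ⊓ d.U x.2
  covers := by
    simp only [iSup_prod, ← inf_iSup_eq, d.covers, inf_top_eq, c.covers]
  g x y :=
    Units.map (res X (inf_le_inf inf_le_left inf_le_left)).toMonoidHom (c.g x.1 y.1) *
      Units.map (res X (inf_le_inf inf_le_right inf_le_right)).toMonoidHom (d.g x.2 y.2)
  cocycle x y z W h₁ h₂ h₃ := by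
    simp only [Units.val_mul, Units.coe_map, MonoidHom.coe_coe, RingHom.toMonoidHom_eq_coe, map_mul,
      res_res]
    rw [mul_mul_mul_comm, c.cocycle x.1 y.1 z.1, d.cocycle x.2 y.2 z.2]

theorem ures_mul_g (c d : Coc X) (x y : (c.mul d).ι) {W : X.Opens}
    (h : W ≤ (c.mul d).U x ⊓ (c.mul d).U y) :
    ures X h ((c.mul d).g x y) =
      ures X (h.trans (inf_le_inf inf_le_left inf_le_left)) (c.g x.1 y.1) *
        ures X (h.trans (inf_le_inf inf_le_right inf_le_right)) (d.g x.2 y.2) := by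
  show ures X h (ures X _ (c.g x.1 y.1) * ures X _ (d.g x.2 y.2)) = _
  rw [map_mul]
  exact congrArg₂ (· * ·) (ures_ures _ h _) (ures_ures _ h _)

theorem ures_trivial_g (a b : (trivial X).ι) {W : X.Opens}
    (h : W ≤ (trivial X).U a ⊓ (trivial X).U b) :
    ures X h ((trivial X).g a b) = 1 := map_one (ures X h)

/-- The inverse cocycle. -/
@[reducible]
def inv (c : Coc X) : Coc X where
  ι := c.ι
  U := c.U
  covers := c.covers
  g a b := (c.g a b)⁻¹
  cocycle a b e W h₁ h₂ h₃ := by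
    have h := congrArg (fun z => (z⁻¹ : Γ(X, W)ˣ).1) (c.ures_cocycle a b e h₁ h₂ h₃)
    simpa only [mul_inv, ← map_inv, Units.val_mul, val_ures] using h

theorem ures_inv_g (c : Coc X) (a b : c.ι) {W : X.Opens} (h : W ≤ c.inv.U a ⊓ c.inv.U b) :
    ures X h (c.inv.g a b) = (ures X (show W ≤ c.U a ⊓ c.U b from h) (c.g a b))⁻¹ :=
  map_inv (ures X h) (c.g a b)

/-- The pull-back of a cocycle. -/
@[reducible]
def comap (φ : Y ⟶ X) (c : Coc X) : Coc Y where
  ι := c.ι
  U a := φ ⁻¹ᵁ c.U a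
  covers := by rw [← φ.preimage_iSup, c.covers]; rfl
  g a b := Units.map (φ.appLE (c.U a ⊓ c.U b) (φ ⁻¹ᵁ c.U a ⊓ φ ⁻¹ᵁ c.U b) le_rfl).hom.toMonoidHom
    (c.g a b)
  cocycle a b e W h₁ h₂ h₃ := by
    have hW : W ≤ φ ⁻¹ᵁ (c.U a ⊓ c.U b ⊓ c.U e) :=
      le_inf (le_inf (h₁.trans inf_le_left) (h₁.trans inf_le_right)) (h₂.trans inf_le_right)
    have k₁ : c.U a ⊓ c.U b ⊓ c.U e ≤ c.U a ⊓ c.U b := inf_le_left
    have k₂ : c.U a ⊓ c.U b ⊓ c.U e ≤ c.U b ⊓ c.U e := inf_le_inf_right _ inf_le_right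
    have k₃ : c.U a ⊓ c.U b ⊓ c.U e ≤ c.U a ⊓ c.U e := inf_le_inf_right _ inf_le_left
    have h := congrArg (φ.appLE _ W hW) (c.cocycle a b e _ k₁ k₂ k₃)
    rw [map_mul] at h
    simpa only [res, Units.coe_map, MonoidHom.coe_coe, RingHom.toMonoidHom_eq_coe,
      ← ConcreteCategory.comp_apply, Scheme.Hom.appLE_map, Scheme.Hom.map_appLE] using h

/-- The pull-back of invertible functions. -/
def upull (φ : Y ⟶ X) {U : X.Opens} {W : Y.Opens} (h : W ≤ φ ⁻¹ᵁ U) : Γ(X, U)ˣ →* Γ(Y, W)ˣ :=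
  Units.map (φ.appLE U W h).hom.toMonoidHom

theorem ures_comap_g (φ : Y ⟶ X) (c : Coc X) (a b : c.ι) {W : Y.Opens}
    (h : W ≤ (c.comap φ).U a ⊓ (c.comap φ).U b) :
    ures Y h ((c.comap φ).g a b) = upull φ (show W ≤ φ ⁻¹ᵁ (c.U a ⊓ c.U b) from h) (c.g a b) := by
  refine Units.ext ?_
  show (φ.appLE (c.U a ⊓ c.U b) (φ ⁻¹ᵁ c.U a ⊓ φ ⁻¹ᵁ c.U b) le_rfl ≫
    Y.presheaf.map (homOfLE h).op) (c.g a b : Γ(X, c.U a ⊓ c.U b)) = _
  rw [Scheme.Hom.appLE_map]
  rfl

theorem upull_ures (φ : Y ⟶ X) {U U' : X.Opens} {W : Y.Opens} (h : W ≤ φ ⁻¹ᵁ U') (h' : U' ≤ U)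
    (s : Γ(X, U)ˣ) : upull φ h (ures X h' s) = upull φ (h.trans (φ.preimage_mono h')) s := by
  refine Units.ext ?_
  simp only [upull, Units.coe_map, MonoidHom.coe_coe, RingHom.toMonoidHom_eq_coe, val_ures, res,
    ← ConcreteCategory.comp_apply, Scheme.Hom.map_appLE]

theorem ures_upull (φ : Y ⟶ X) {U : X.Opens} {W W' : Y.Opens} (h : W ≤ φ ⁻¹ᵁ U) (h' : W' ≤ W)
    (s : Γ(X, U)ˣ) : ures Y h' (upull φ h s) = upull φ (h'.trans h) s := by
  refine Units.ext ?_
  simp only [upull, Units.coe_map, MonoidHom.coe_coe, RingHom.toMonoidHom_eq_coe, val_ures, res,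
    ← ConcreteCategory.comp_apply, Scheme.Hom.appLE_map]

theorem mul_congr {c c' d d' : Coc X} (hc : c.Equiv c') (hd : d.Equiv d') :
    (c.mul d).Equiv (c'.mul d') := by
  obtain ⟨w, hw⟩ := equiv_iff.1 hc
  obtain ⟨v, hv⟩ := equiv_iff.1 hd
  refine equiv_iff.2 ⟨fun x y => ures X (inf_le_inf inf_le_left inf_le_left) (w x.1 y.1) *
    ures X (inf_le_inf inf_le_right inf_le_right) (v x.2 y.2), fun x x' y y' W hx hy h1 h2 => ?_⟩
  rw [ures_mul_g, ures_mul_g]
  rw [map_mul, map_mul, ures_ures, ures_ures, ures_ures, ures_ures]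
  rw [mul_mul_mul_comm, hw x.1 x'.1 y.1 y'.1, hv x.2 x'.2 y.2 y'.2, mul_mul_mul_comm]

theorem inv_congr {c d : Coc X} (h : c.Equiv d) : c.inv.Equiv d.inv := by
  obtain ⟨w, hw⟩ := equiv_iff.1 h
  refine equiv_iff.2 ⟨fun a b => (w a b)⁻¹, fun a a' b b' W ha hb h1 h2 => ?_⟩
  have := congrArg (·⁻¹) (hw a a' b b' W ha hb h1 h2)
  rw [mul_inv, mul_inv] at this
  exact ((congrArg₂ (· * ·) (ures_inv_g c a a' ha)
    (map_inv (ures X h2) (w a' b'))).trans this).trans
    (congrArg₂ (· * ·) (map_inv (ures X h1) (w a b)) (ures_inv_g d b b' hb)).symm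

theorem comap_congr (φ : Y ⟶ X) {c d : Coc X} (h : c.Equiv d) : (c.comap φ).Equiv (d.comap φ) := by
  obtain ⟨w, hw⟩ := equiv_iff.1 h
  refine equiv_iff.2 ⟨fun a b => upull φ (le_refl (φ ⁻¹ᵁ (c.U a ⊓ d.U b))) (w a b),
    fun a a' b b' W ha hb h1 h2 => ?_⟩
  let U := c.U a ⊓ c.U a' ⊓ (d.U b ⊓ d.U b')
  have hW : W ≤ φ ⁻¹ᵁ U := le_inf ha hb
  have k1 : U ≤ c.U a ⊓ d.U b := inf_le_inf inf_le_left inf_le_left
  have k2 : U ≤ c.U a' ⊓ d.U b' := inf_le_inf inf_le_right inf_le_right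
  have := congrArg (upull φ hW) (hw a a' b b' U inf_le_left inf_le_right k1 k2)
  rw [ures_comap_g, ures_comap_g]
  erw [ures_upull, ures_upull]
  simpa only [map_mul, upull_ures] using this

/-- A compatible family of functions: a section. -/
def IsSection (c : Coc X) (s : ∀ a, Γ(X, c.U a)) : Prop :=
  ∀ (a b : c.ι) (W : X.Opens) (ha : W ≤ c.U a) (hb : W ≤ c.U b) (hab : W ≤ c.U a ⊓ c.U b),
    res X ha (s a) = res X hab (c.g a b : Γ(X, c.U a ⊓ c.U b)) * res X hb (s b)

end Coc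

/-! ### The Picard group -/

/-- The Picard group. -/
def Pic (X : Scheme.{u}) : Type (u + 1) := Quotient (Coc.setoid X)

namespace Pic

variable {X Y Z : Scheme.{u}}

/-- The class of a cocycle. -/
def mk (c : Coc X) : Pic X := Quotient.mk _ c

/-- A cocycle and a refinement of it have the same class. -/
theorem mk_eq_mk_of_refine (c d : Coc X) (σ : d.ι → c.ι) (hU : ∀ b, d.U b ≤ c.U (σ b))
    (hg : ∀ b b' (W : X.Opens) (h : W ≤ d.U b ⊓ d.U b') (h' : W ≤ c.U (σ b) ⊓ c.U (σ b')),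
      ures X h (d.g b b') = ures X h' (c.g (σ b) (σ b'))) : mk c = mk d :=
  Quotient.sound (c.equiv_of_refine d σ hU hg)

instance : Zero (Pic X) := ⟨mk (Coc.trivial X)⟩
instance : Add (Pic X) := ⟨Quotient.map₂ Coc.mul fun _ _ h _ _ h' => Coc.mul_congr h h'⟩
instance : Neg (Pic X) := ⟨Quotient.map Coc.inv fun _ _ h => Coc.inv_congr h⟩

instance : AddCommGroup (Pic X) where
  add_assoc x y z := by
    induction x using Quotient.ind with | _ c => ?_
    induction y using Quotient.ind with | _ d => ?_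
    induction z using Quotient.ind with | _ e => ?_
    exact mk_eq_mk_of_refine ((c.mul d).mul e) (c.mul (d.mul e)) (fun x => ((x.1, x.2.1), x.2.2))
      (fun x => by simp only [Coc.mul]; rw [inf_assoc]) fun x y W h h' => by
        rw [Coc.ures_mul_g, Coc.ures_mul_g, Coc.ures_mul_g, Coc.ures_mul_g, mul_assoc]
  zero_add x := by
    induction x using Quotient.ind with | _ c => ?_
    exact mk_eq_mk_of_refine ((Coc.trivial X).mul c) c (fun a => (PUnit.unit, a))
      (fun a => le_inf le_top le_rfl) fun a b W h h' => by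
        rw [Coc.ures_mul_g, Coc.ures_trivial_g, one_mul]
  add_zero x := by
    induction x using Quotient.ind with | _ c => ?_
    exact mk_eq_mk_of_refine (c.mul (Coc.trivial X)) c (fun a => (a, PUnit.unit))
      (fun a => le_inf le_rfl le_top) fun a b W h h' => by
        rw [Coc.ures_mul_g, Coc.ures_trivial_g, mul_one]
  neg_add_cancel x := by
    induction x using Quotient.ind with | _ c => ?_
    refine Quotient.sound (Coc.equiv_iff.2 ⟨fun x _ => ures X inf_le_left (c.g x.1 x.2)⁻¹,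
      fun x x' _ _ W hx _ h1 h2 => ?_⟩)
    rw [Coc.ures_mul_g, Coc.ures_inv_g, Coc.ures_trivial_g, mul_one]
    beta_reduce
    rw [ures_ures, ures_ures, map_inv, map_inv]
    have hW : W ≤ c.U x.1 ⊓ c.U x'.2 :=
      le_inf (hx.trans (inf_le_left.trans inf_le_left)) (hx.trans (inf_le_right.trans inf_le_right))
    have key : ∀ a b a' b' : Γ(X, W)ˣ, a * b = a' * b' →
        a⁻¹ * b' * b⁻¹ = a'⁻¹ := fun a b a' b' h => by
      rw [eq_inv_iff_mul_eq_one, show a⁻¹ * b' * b⁻¹ * a' = a' * b' * (a * b)⁻¹ by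
        simp only [mul_inv]; ac_rfl, h, mul_inv_cancel]
    exact key _ _ _ _ ((c.ures_cocycle x.1 x'.1 x'.2 _ _ hW).trans
      (c.ures_cocycle x.1 x.2 x'.2 _ _ hW).symm)
  add_comm x y := by
    induction x using Quotient.ind with | _ c => ?_
    induction y using Quotient.ind with | _ d => ?_
    exact mk_eq_mk_of_refine (c.mul d) (d.mul c) (fun x => (x.2, x.1))
      (fun x => (inf_comm _ _).le) fun x y W h h' => by
        rw [Coc.ures_mul_g, Coc.ures_mul_g, mul_comm]
  nsmul := nsmulRec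
  zsmul := zsmulRec

/-- Pull-back of classes. -/
def map (φ : Y ⟶ X) : Pic X →+ Pic Y where
  toFun := Quotient.map (Coc.comap φ) fun _ _ h => Coc.comap_congr φ h
  map_zero' := mk_eq_mk_of_refine ((Coc.trivial X).comap φ) (Coc.trivial Y) (fun a => a)
    (fun _ => le_rfl) fun a b W h h' => by
      rw [Coc.ures_comap_g, Coc.ures_trivial_g]
      exact (map_one _).symm
  map_add' x y := by
    induction x using Quotient.ind with | _ c => ?_
    induction y using Quotient.ind with | _ d => ?_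
    exact mk_eq_mk_of_refine ((c.mul d).comap φ) ((c.comap φ).mul (d.comap φ)) (fun a => a)
      (fun _ => le_rfl) fun a b W h h' => by
        have e := congrArg (Coc.upull φ (show W ≤ φ ⁻¹ᵁ ((c.mul d).U a ⊓ (c.mul d).U b) from h'))
          (c.ures_mul_g d a b le_rfl)
        rw [ures_self] at e
        rw [Coc.ures_mul_g, Coc.ures_comap_g, Coc.ures_comap_g, Coc.ures_comap_g, e, map_mul,
          Coc.upull_ures, Coc.upull_ures]

/-- The pull-back of the class of a cocycle is the class of its inverse image. -/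
theorem map_mk (φ : Y ⟶ X) (c : Coc X) : map φ (mk c) = mk (c.comap φ) := rfl

/-- Pull-back along the identity is the identity of the Picard group. -/
theorem map_id (x : Pic X) : map (𝟙 X) x = x := by
  induction x using Quotient.ind with | _ c => ?_
  exact (mk_eq_mk_of_refine c (c.comap (𝟙 X)) (fun a => a) (fun _ => le_rfl) fun a b W h h' => by
    rw [Coc.ures_comap_g]
    refine Units.ext ?_
    simp [Coc.upull, Scheme.Hom.appLE, res]
    rfl).symm

/-- Pull-back of classes is compatible with composition. -/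
theorem map_comp (φ : Y ⟶ X) (ψ : Z ⟶ Y) (x : Pic X) : map (ψ ≫ φ) x = map ψ (map φ x) := by
  induction x using Quotient.ind with | _ c => ?_
  exact mk_eq_mk_of_refine (c.comap (ψ ≫ φ)) ((c.comap φ).comap ψ) (fun a => a) (fun _ => le_rfl)
    fun a b W h h' => by
      have e := congrArg (Coc.upull ψ (show W ≤ ψ ⁻¹ᵁ ((c.comap φ).U a ⊓ (c.comap φ).U b) from h))
        (c.ures_comap_g φ a b le_rfl)
      rw [ures_self] at e
      rw [Coc.ures_comap_g, Coc.ures_comap_g, e]
      refine Units.ext ?_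
      simp only [Coc.upull, Units.coe_map, MonoidHom.coe_coe, RingHom.toMonoidHom_eq_coe,
        ← ConcreteCategory.comp_apply, Scheme.Hom.appLE_comp_appLE]

theorem mk_eq_zero_of_eq_top (c : Coc X) (a : c.ι) (h : c.U a = ⊤) : mk c = 0 :=
  mk_eq_mk_of_refine c (Coc.trivial X) (fun _ => a) (fun _ => h.ge) fun b b' W hW h' => by
    rw [c.ures_g_self]
    exact map_one _

/-- The Picard group of a field is trivial. -/
theorem subsingleton_spec_field (k : Type u) [Field k] :
    Subsingleton (Pic (Spec (CommRingCat.of k))) := by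
  suffices h : ∀ x : Pic (Spec (CommRingCat.of k)), x = 0 from ⟨fun x y => (h x).trans (h y).symm⟩
  intro x
  induction x using Quotient.ind with | _ c => ?_
  let p : Spec (CommRingCat.of k) := IsLocalRing.closedPoint k
  obtain ⟨a, ha⟩ := Opens.mem_iSup.1 (c.covers.ge (Set.mem_univ p))
  refine mk_eq_zero_of_eq_top c a (top_le_iff.1 fun y _ => ?_)
  rwa [Subsingleton.elim y p]

/-- A cocycle has trivial class exactly when it has a section by units. -/
theorem mk_eq_zero_iff (c : Coc X) :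
    mk c = 0 ↔ ∃ s : ∀ a, Γ(X, c.U a)ˣ, c.IsSection (fun a => (s a : Γ(X, c.U a))) := by
  constructor
  · intro h
    obtain ⟨w, hw⟩ := Coc.equiv_iff.1 (Quotient.exact h)
    refine ⟨fun a => ures X (le_inf le_rfl le_top) (w a PUnit.unit), fun a b W ha hb hab => ?_⟩
    have e : ures X hab (c.g a b) * ures X (le_inf hb le_top) (w b PUnit.unit) =
        ures X (le_inf ha le_top) (w a PUnit.unit) :=
      (hw a b PUnit.unit PUnit.unit W hab (le_inf le_top le_top) (le_inf ha le_top)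
        (le_inf hb le_top)).trans
        ((congrArg (_ * ·) (Coc.ures_trivial_g _ _ _)).trans (mul_one _))
    show res X ha (res X _ _) = res X hab _ * res X hb (res X _ _)
    rw [res_res, res_res]
    exact (congrArg Units.val e).symm
  · rintro ⟨s, hs⟩
    refine Quotient.sound (Coc.equiv_iff.2 ⟨fun a _ => ures X inf_le_left (s a),
      fun a a' _ _ W ha _ h1 h2 => ?_⟩)
    exact ((congrArg (_ * ·) (ures_ures _ _ _)).trans
      (Units.ext (hs a a' W (ha.trans inf_le_left) (ha.trans inf_le_right) ha).symm)).trans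
      ((congrArg₂ (· * ·) (ures_ures _ _ _) (Coc.ures_trivial_g _ _ _)).trans (mul_one _)).symm

end Pic

end Fermat.Agent.AbVar

end
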