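import Fermat.Agent.AbVar.Pic.Basic
import Fermat.Agent.Jac.ModGlue.Glue
import Fermat.Agent.Jac.Scheme.Sec.PullbackGen

/-!
# The class of an invertible sheaf

Local generators of an invertible sheaf give a cocycle; every cocycle comes from a sheaf glued from
trivial ones.

The class is `Pic.ofModules`: equal exactly for isomorphic sheaves (`Pic.ofModules_eq_iff`), onto
(`Pic.exists_ofModules`) and compatible with pull-backs (`Pic.map_ofModules`).
-/

set_option autoImplicit false

universe u

noncomputable section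

open CategoryTheory AlgebraicGeometry TopologicalSpace
open Fermat.Agent.Jac.ModGlue

namespace Fermat.Agent.AbVar

variable {X Y : Scheme.{u}} {P Q : X.Modules}

/-! ### Generators -/

/-- The coefficient with respect to a generator is unique. -/
theorem gen_cancel {U W : X.Opens} {e : Γ(P, U)} (he : IsGen P U e) (h : W ≤ U) {a b : Γ(X, W)}
    (hab : a • mres P h e = b • mres P h e) : a = b :=
  (he W h).1 hab

/-- A multiple of a generator by a unit is a generator. -/
theorem isGen_units_smul {U : X.Opens} {e : Γ(P, U)} (he : IsGen P U e) (u : Γ(X, U)ˣ) :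
    IsGen P U ((u : Γ(X, U)) • e) := fun W h => by
  simp only [mres_smul, ← mul_smul]
  exact (he W h).comp (ures X h u).mulRight_bijective

/-- Morphisms on the open of a generator agreeing on it are equal. -/
theorem localHom_ext_gen {U : X.Opens} {e : Γ(P, U)} (he : IsGen P U e) {φ ψ : LocalHom U P Q}
    (h : φ.app U le_rfl e = ψ.app U le_rfl e) : φ = ψ :=
  LocalHom.ext_app fun W hW s => by
    obtain ⟨a, rfl⟩ := (he W hW).2 s
    rw [φ.map_smul, ψ.map_smul, φ.naturality W U hW le_rfl, ψ.naturality W U hW le_rfl, h]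

/-- The morphism with a given value on a generator. -/
def genHom {U : X.Opens} {e : Γ(P, U)} (he : IsGen P U e) (e' : Γ(Q, U)) : LocalHom U P Q where
  app W hW :=
    AddMonoidHom.mk' (fun s => (Equiv.ofBijective _ (he W hW)).symm s • mres Q hW e') fun s t => by
      rw [← add_smul]
      refine congrArg (· • mres Q hW e') ((he W hW).1 ?_)
      have h1 := (Equiv.ofBijective _ (he W hW)).apply_symm_apply
      simp only [Equiv.ofBijective_apply] at h1
      show _ • mres P hW e = (_ + _) • mres P hW e
      rw [add_smul, h1, h1, h1]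
  map_smul W hW a s := by
    show (Equiv.ofBijective _ (he W hW)).symm (a • s) • mres Q hW e' = _
    rw [show (Equiv.ofBijective _ (he W hW)).symm (a • s) =
      a * (Equiv.ofBijective _ (he W hW)).symm s from
      (he W hW).1 (by
        have h1 := (Equiv.ofBijective _ (he W hW)).apply_symm_apply
        simp only [Equiv.ofBijective_apply] at h1
        show _ • mres P hW e = (_ * _) • mres P hW e
        rw [mul_smul, h1, h1]), mul_smul]
    rfl
  naturality W' W h hW s := by
    show (Equiv.ofBijective _ (he W' (h.trans hW))).symm (mres P h s) • mres Q _ e' =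
      mres Q h ((Equiv.ofBijective _ (he W hW)).symm s • mres Q hW e')
    rw [mres_smul, mres_mres]
    refine congrArg (· • mres Q (h.trans hW) e') ((he W' (h.trans hW)).1 ?_)
    have h1 := (Equiv.ofBijective _ (he W' (h.trans hW))).apply_symm_apply
    have h2 := congrArg (mres P h) ((Equiv.ofBijective _ (he W hW)).apply_symm_apply s)
    simp only [Equiv.ofBijective_apply, mres_smul, mres_mres] at h1 h2
    exact (h1 _).trans h2.symm

theorem genHom_gen {U : X.Opens} {e : Γ(P, U)} (he : IsGen P U e) (e' : Γ(Q, U)) :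
    (genHom he e').app U le_rfl e = e' := by
  show (Equiv.ofBijective _ (he U le_rfl)).symm e • mres Q le_rfl e' = e'
  rw [show (Equiv.ofBijective _ (he U le_rfl)).symm e = 1 from (Equiv.symm_apply_eq _).2
    (show e = (1 : Γ(X, U)) • mres P le_rfl e by rw [one_smul, mres_self]), one_smul, mres_self]

/-- Two generators define an isomorphism. -/
def genIso {U : X.Opens} {e : Γ(P, U)} (he : IsGen P U e) {e' : Γ(Q, U)} (he' : IsGen Q U e') :
    LocalIso U P Q where
  hom := genHom he e'
  inv := genHom he' e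
  hom_inv_id := localHom_ext_gen he (by
    show (genHom he' e).app U le_rfl ((genHom he e').app U le_rfl e) = e
    rw [genHom_gen, genHom_gen])
  inv_hom_id := localHom_ext_gen he' (by
    show (genHom he e').app U le_rfl ((genHom he' e).app U le_rfl e') = e'
    rw [genHom_gen, genHom_gen])

/-! ### Frames and their cocycles -/

/-- Local generators on a cover. -/
structure Frame (M : X.Modules) where
  /-- the indices -/
  ι : Type u
  /-- the cover -/
  U : ι → X.Opens
  covers : (⨆ a, U a) = ⊤
  /-- the generators -/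
  e : ∀ a, Γ(M, U a)
  gen : ∀ a, IsGen M (U a) (e a)

namespace Frame

variable {M N : X.Modules} (F : Frame M)

theorem exists_g (a b : F.ι) : ∃ g : Γ(X, F.U a ⊓ F.U b)ˣ,
    (g : Γ(X, F.U a ⊓ F.U b)) • mres M inf_le_left (F.e a) = mres M inf_le_right (F.e b) := by
  obtain ⟨g, hg⟩ := (F.gen a _ inf_le_left).2 (mres M inf_le_right (F.e b) : Γ(M, F.U a ⊓ F.U b))
  obtain ⟨g', hg'⟩ := (F.gen b _ inf_le_right).2 (mres M inf_le_left (F.e a) : Γ(M, F.U a ⊓ F.U b))
  replace hg : g • mres M inf_le_left (F.e a) = mres M inf_le_right (F.e b) := hg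
  replace hg' : g' • mres M inf_le_right (F.e b) = mres M inf_le_left (F.e a) := hg'
  exact ⟨⟨g, g', gen_cancel (F.gen b) inf_le_right (by rw [mul_smul, hg', hg, one_smul]),
    gen_cancel (F.gen a) inf_le_left (by rw [mul_smul, hg, hg', one_smul])⟩, hg⟩

/-- The transition function: `e b = g a b • e a`. -/
def g (a b : F.ι) : Γ(X, F.U a ⊓ F.U b)ˣ := (F.exists_g a b).choose

theorem g_spec (a b : F.ι) {W : X.Opens} (h : W ≤ F.U a ⊓ F.U b) :
    res X h (F.g a b : Γ(X, F.U a ⊓ F.U b)) • mres M (h.trans inf_le_left) (F.e a) =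
      mres M (h.trans inf_le_right) (F.e b) := by
  have h1 := congrArg (mres M h) (F.exists_g a b).choose_spec
  rw [mres_smul, mres_mres, mres_mres] at h1
  exact h1

theorem g_unique (a b : F.ι) {W : X.Opens} (h : W ≤ F.U a ⊓ F.U b) {f : Γ(X, W)}
    (hf : f • mres M (h.trans inf_le_left) (F.e a) = mres M (h.trans inf_le_right) (F.e b)) :
    f = res X h (F.g a b : Γ(X, F.U a ⊓ F.U b)) :=
  gen_cancel (F.gen a) _ (hf.trans (F.g_spec a b h).symm)

/-- The cocycle of the frame. -/
@[reducible]
def coc : Coc X where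
  ι := F.ι
  U := F.U
  covers := F.covers
  g := F.g
  cocycle a b e W hab hbe hae := F.g_unique a e hae (by
    rw [mul_comm, mul_smul, F.g_spec a b hab, F.g_spec b e hbe])

/-- The image of a frame under an isomorphism. -/
def mapIso (φ : M ≅ N) : Frame N where
  ι := F.ι
  U := F.U
  covers := F.covers
  e a := φ.hom.app (F.U a) (F.e a)
  gen a := (F.gen a).map (LocalIso.ofIso (F.U a) φ) le_rfl

theorem mk_coc_eq (F' : Frame M) : Pic.mk F.coc = Pic.mk F'.coc := by
  have hex : ∀ a b, ∃ w : Γ(X, F.U a ⊓ F'.U b)ˣ,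
      (w : Γ(X, F.U a ⊓ F'.U b)) • mres M inf_le_left (F.e a) = mres M inf_le_right (F'.e b) := by
    intro a b
    obtain ⟨g, hg⟩ := (F.gen a _ inf_le_left).2 (mres M inf_le_right (F'.e b) :
      Γ(M, F.U a ⊓ F'.U b))
    obtain ⟨g', hg'⟩ := (F'.gen b _ inf_le_right).2 (mres M inf_le_left (F.e a) :
      Γ(M, F.U a ⊓ F'.U b))
    replace hg : g • mres M inf_le_left (F.e a) = mres M inf_le_right (F'.e b) := hg
    replace hg' : g' • mres M inf_le_right (F'.e b) = mres M inf_le_left (F.e a) := hg'
    exact ⟨⟨g, g', gen_cancel (F'.gen b) inf_le_right (by rw [mul_smul, hg', hg, one_smul]),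
      gen_cancel (F.gen a) inf_le_left (by rw [mul_smul, hg, hg', one_smul])⟩, hg⟩
  choose w hw using hex
  have hspec : ∀ a b (W : X.Opens) (h : W ≤ F.U a ⊓ F'.U b),
      res X h (w a b : Γ(X, F.U a ⊓ F'.U b)) • mres M (h.trans inf_le_left) (F.e a) =
        mres M (h.trans inf_le_right) (F'.e b) := fun a b W h => by
    have h1 := congrArg (mres M h) (hw a b)
    rw [mres_smul, mres_mres, mres_mres] at h1
    exact h1
  refine Quotient.sound ⟨w,
    fun a a' b b' W ha hb h1 h2 => gen_cancel (F.gen a) (ha.trans inf_le_left) ?_⟩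
  rw [mul_comm, mul_smul, F.g_spec a a' ha, hspec a' b' W h2, mul_comm, mul_smul, hspec a b W h1,
    F'.g_spec b b' hb]

theorem coc_mapIso (φ : M ≅ N) : Pic.mk (F.mapIso φ).coc = Pic.mk F.coc := by
  refine (Pic.mk_eq_mk_of_refine F.coc (F.mapIso φ).coc (fun a => a) (fun _ => le_rfl) ?_).symm
  intro a b W h h'
  refine Units.ext ((F.mapIso φ).g_unique a b h ?_).symm
  show res X h' (F.g a b : Γ(X, F.U a ⊓ F.U b)) • mres N _ (φ.hom.app (F.U a) (F.e a)) =
    mres N _ (φ.hom.app (F.U b) (F.e b))
  rw [← app_mres, ← app_mres, ← φ.hom.app_smul, F.g_spec a b h']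

end Frame

theorem exists_frame {M : X.Modules} (hM : Scheme.Modules.IsInvertible M) : Nonempty (Frame M) := by
  choose U g hxU _ hg using fun x : X => hasGens_of_isInvertible hM ⊤ x trivial
  exact ⟨⟨X, U, eq_top_iff.2 fun x _ => Opens.mem_iSup.2 ⟨x, hxU x⟩, g, hg⟩⟩

/-! ### The class of a sheaf -/

namespace Pic

/-- The class of an invertible sheaf. -/
def ofModules (M : X.Modules) (hM : Scheme.Modules.IsInvertible M) : Pic X :=
  mk (exists_frame hM).some.coc

theorem ofModules_eq_mk {M : X.Modules} (hM : Scheme.Modules.IsInvertible M) (F : Frame M) :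
    ofModules M hM = mk F.coc :=
  Frame.mk_coc_eq _ F

/-- Invertible sheaves have the same class exactly when they are isomorphic. -/
theorem ofModules_eq_iff {M N : X.Modules} (hM : Scheme.Modules.IsInvertible M)
    (hN : Scheme.Modules.IsInvertible N) : ofModules M hM = ofModules N hN ↔ Nonempty (M ≅ N) := by
  constructor
  · intro h
    obtain ⟨F⟩ := exists_frame hM
    obtain ⟨G⟩ := exists_frame hN
    rw [ofModules_eq_mk hM F, ofModules_eq_mk hN G] at h
    obtain ⟨w, hw⟩ := Quotient.exact h
    replace hw : ∀ (a a' : F.ι) (b b' : G.ι) (W : X.Opens) (ha : W ≤ F.U a ⊓ F.U a')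
        (hb : W ≤ G.U b ⊓ G.U b') (h1 : W ≤ F.U a ⊓ G.U b) (h2 : W ≤ F.U a' ⊓ G.U b'),
        ures X ha (F.g a a') * ures X h2 (w a' b') = ures X h1 (w a b) * ures X hb (G.g b b') :=
      fun a a' b b' W ha hb h1 h2 => Units.ext (hw a a' b b' W ha hb h1 h2)
    -- On each `F.U a` glue the `(w a b)⁻¹ • G.e b` to a generator `ε a` of `N`; these have the
    -- transition units of `F`, so `F.e a ↦ ε a` glues to an isomorphism.
    have hex : ∀ a, ∃ ε : Γ(N, F.U a), ∀ b (W : X.Opens) (h1 : W ≤ F.U a ⊓ G.U b),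
        mres N (h1.trans inf_le_left) ε =
          (ures X h1 (w a b)⁻¹ : Γ(X, W)ˣ).1 • mres N (h1.trans inf_le_right) (G.e b) := by
      intro a
      obtain ⟨ε, hε⟩ := exists_glue N (fun b => F.U a ⊓ G.U b) (fun _ => inf_le_left)
        (by rw [← inf_iSup_eq, G.covers, inf_top_eq])
        (fun b => ((w a b)⁻¹ : Γ(X, F.U a ⊓ G.U b)ˣ).1 • mres N inf_le_right (G.e b)) fun b b' => by
        have e1 := hw a a b b' _
          (le_inf (inf_le_left.trans inf_le_left) (inf_le_left.trans inf_le_left))
          (le_inf (inf_le_left.trans inf_le_right) (inf_le_right.trans inf_le_right))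
          (inf_le_left : F.U a ⊓ G.U b ⊓ (F.U a ⊓ G.U b') ≤ _) inf_le_right
        rw [show ures X (le_inf (inf_le_left.trans inf_le_left) (inf_le_left.trans inf_le_left) :
          F.U a ⊓ G.U b ⊓ (F.U a ⊓ G.U b') ≤ _) (F.g a a) = 1 from F.coc.ures_g_self a _, one_mul,
          eq_comm, ← eq_inv_mul_iff_mul_eq] at e1
        simp only [mres_smul, mres_mres]
        rw [← G.g_spec b b' (le_inf (inf_le_left.trans inf_le_right)
          (inf_le_right.trans inf_le_right) :
          F.U a ⊓ G.U b ⊓ (F.U a ⊓ G.U b') ≤ _), ← mul_smul]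
        refine congrArg (· • mres N _ (G.e b)) ?_
        show (ures X inf_le_left (w a b)⁻¹).1 = (ures X inf_le_right (w a b')⁻¹).1 *
          (ures X _ (G.g b b')).1
        rw [← Units.val_mul, map_inv, map_inv, e1, mul_comm, mul_inv_cancel_right]
      exact ⟨ε, fun b W h1 => by
        have := congrArg (mres N h1) (hε b)
        rwa [mres_mres, mres_smul, mres_mres] at this⟩
    choose ε hε using hex
    have hgen : ∀ a, IsGen N (F.U a) (ε a) := fun a =>
      IsGen.of_cover (fun b => F.U a ⊓ G.U b) (fun _ => inf_le_left)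
        (by rw [← inf_iSup_eq, G.covers, inf_top_eq]) fun b => by
        rw [hε a b _ le_rfl, ures_self]
        exact isGen_units_smul ((G.gen b).mres inf_le_right) _
    have key : ∀ a a' (W : X.Opens) (h : W ≤ F.U a ⊓ F.U a'),
        res X h (F.g a a' : Γ(X, F.U a ⊓ F.U a')) • mres N (h.trans inf_le_left) (ε a) =
          mres N (h.trans inf_le_right) (ε a') := by
      intro a a' W h
      refine eq_of_cover N (fun b => W ⊓ G.U b) (fun _ => inf_le_left)
        (by rw [← inf_iSup_eq, G.covers, inf_top_eq]) _ _ fun b => ?_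
      have h1 : W ⊓ G.U b ≤ F.U a ⊓ G.U b := inf_le_inf_right _ (h.trans inf_le_left)
      have h2 : W ⊓ G.U b ≤ F.U a' ⊓ G.U b := inf_le_inf_right _ (h.trans inf_le_right)
      have e1 := hw a a' b b _ (inf_le_left.trans h) (le_inf inf_le_right inf_le_right) h1 h2
      rw [show ures X (le_inf inf_le_right inf_le_right : W ⊓ G.U b ≤ _) (G.g b b) = 1 from
        G.coc.ures_g_self b _, mul_one] at e1
      rw [mres_smul, mres_mres, mres_mres, hε a b _ h1, hε a' b _ h2, ← mul_smul, rres]
      refine congrArg (· • mres N _ (G.e b)) ?_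
      show res X inf_le_left (res X h (F.g a a').1) * _ = _
      rw [res_res, ← val_ures, ← Units.val_mul, map_inv, map_inv, ← e1, mul_inv,
        mul_inv_cancel_left]
    obtain ⟨Θ, -⟩ := LocalIso.exists_glue (V := ⊤) F.U (fun _ => le_top) F.covers.ge
      (fun a => genIso (F.gen a) (hgen a)) fun a a' => by
      refine localHom_ext_gen ((F.gen a).mres inf_le_left) ?_
      show (genHom (F.gen a) (ε a)).app _ inf_le_left (mres M inf_le_left (F.e a)) =
        (genHom (F.gen a') (ε a')).app _ inf_le_right (mres M inf_le_left (F.e a))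
      have hu : IsUnit (res X le_rfl (F.g a a' : Γ(X, F.U a ⊓ F.U a'))) := (F.g a a').isUnit.map _
      refine hu.smul_left_cancel.1 ?_
      rw [← (genHom (F.gen a') (ε a')).map_smul, F.g_spec a a' le_rfl,
        (genHom (F.gen a) (ε a)).naturality _ _ inf_le_left le_rfl,
        (genHom (F.gen a') (ε a')).naturality _ _ inf_le_right le_rfl, genHom_gen, genHom_gen]
      exact key a a' _ le_rfl
    exact ⟨Θ.toIso⟩
  · rintro ⟨φ⟩
    obtain ⟨F⟩ := exists_frame hM
    rw [ofModules_eq_mk hM F, ofModules_eq_mk hN (F.mapIso φ), Frame.coc_mapIso]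

/-- A sheaf free on an open and extended from it: its sections on `W` are those on `W ⊓ U`. -/
theorem exists_supported_gen (U : X.Opens) :
    ∃ (P : X.Modules) (e : Γ(P, U)), IsGen P U e ∧
      ∀ W : X.Opens, Function.Bijective (mres P (inf_le_left : W ⊓ U ≤ W)) := by
  let P := (Scheme.Modules.pushforward U.ι).obj (oMod U.toScheme)
  obtain ⟨g, hg⟩ := exists_gen_of_iso U.ι (P := P) (pushforwardRestrict U.ι _)
  refine ⟨P, mres P U.opensRange_ι.ge g, hg.mres _, fun W => ?_⟩
  have hle : U.ι ⁻¹ᵁ W ≤ U.ι ⁻¹ᵁ (W ⊓ U) := fun z hz => ⟨hz, z.2⟩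
  exact Function.bijective_iff_has_inverse.2 ⟨mres (oMod U.toScheme) hle,
    fun s => (mres_mres (oMod U.toScheme) _ _ s).trans (mres_self (oMod U.toScheme) le_rfl s),
    fun s => (mres_mres (oMod U.toScheme) _ _ s).trans (mres_self (oMod U.toScheme) le_rfl s)⟩

/-- Every class is the class of an invertible sheaf. -/
theorem exists_ofModules (c : Pic X) :
    ∃ (M : X.Modules) (hM : Scheme.Modules.IsInvertible M), ofModules M hM = c := by
  induction c using Quotient.ind with | _ c => ?_
  -- Put a free sheaf on each member of the cover and glue by the cocycle.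
  choose P e he hsupp using fun a => exists_supported_gen (c.U a)
  let ev : ∀ a b, Γ(P b, c.U a ⊓ c.U b) := fun a b =>
    (ures X (inf_comm _ _).le (c.g b a) : Γ(X, c.U a ⊓ c.U b)ˣ).1 • mres (P b) inf_le_right (e b)
  let θ : ∀ a b, LocalIso (c.U a ⊓ c.U b) (P a) (P b) := fun a b =>
    genIso ((he a).mres inf_le_left)
      (isGen_units_smul ((he b).mres inf_le_right) (ures X (inf_comm _ _).le (c.g b a)))
  have hθ : ∀ a b (W : X.Opens) (h : W ≤ c.U a ⊓ c.U b),
      (θ a b).hom.app W h (mres (P a) (h.trans inf_le_left) (e a)) =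
        (ures X (h.trans (inf_comm _ _).le) (c.g b a) : Γ(X, W)ˣ).1 •
          mres (P b) (h.trans inf_le_right) (e b) := by
    intro a b W h
    rw [← mres_mres (P a) h inf_le_left, (θ a b).hom.naturality W _ h le_rfl]
    show mres (P b) h ((genHom _ (ev a b)).app _ le_rfl (mres (P a) inf_le_left (e a))) = _
    rw [genHom_gen, mres_smul, mres_mres]
    exact congrArg (· • mres (P b) _ (e b)) (res_res _ h _)
  let D : GlueDatum X :=
    { ι := c.ι
      V := c.U
      cover := c.covers
      P := P
      supp := hsupp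
      θ := θ
      θ_self := fun a => localHom_ext_gen ((he a).mres inf_le_left) (by
        rw [hθ a a _ le_rfl, c.ures_g_self, Units.val_one, one_smul]
        rfl)
      θ_trans := fun a b d W hab hbd had s => by
        obtain ⟨f, rfl⟩ := ((he a).mres (hab.trans inf_le_left) W le_rfl).2 s
        simp only [mres_mres, (θ a b).hom.map_smul, hθ a b W hab, (θ b d).hom.map_smul,
          hθ b d W hbd, (θ a d).hom.map_smul, hθ a d W had, ← mul_smul, mul_assoc, ← Units.val_mul]
        rw [mul_comm (ures X _ (c.g b a)), c.ures_cocycle d b a _ _ (had.trans (inf_comm _ _).le)] }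
  -- The generators give invertibility, with a frame of the glued sheaf.
  let ε : ∀ a, Γ(D.glued, c.U a) := fun a => (D.projIso a).inv.app (c.U a) le_rfl (e a)
  have hgen : ∀ a, IsGen D.glued (c.U a) (ε a) := fun a => (he a).map (D.projIso a).symm le_rfl
  have hM : Scheme.Modules.IsInvertible D.glued :=
    isInvertible_of_hasGens fun x _ => by
      obtain ⟨a, ha⟩ := Opens.mem_iSup.1 (c.covers.ge (Set.mem_univ x))
      exact ⟨c.U a, ε a, ha, le_top, hgen a⟩
  let F : Frame D.glued := ⟨c.ι, c.U, c.covers, ε, hgen⟩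
  refine ⟨D.glued, hM, (ofModules_eq_mk hM F).trans ?_⟩
  -- Its cocycle is `c`.
  refine (mk_eq_mk_of_refine c F.coc (fun a => a) (fun _ => le_rfl) fun a b W h h' => ?_).symm
  refine Units.ext (F.g_unique a b h ?_).symm
  have hinj : Function.Injective ((D.projIso a).hom.app W (h.trans inf_le_left)) :=
    (D.proj_bijective a W (h.trans inf_le_left)).1
  refine hinj ?_
  have hproj : ∀ d (hd : W ≤ c.U d),
      (D.projIso d).hom.app W hd (mres D.glued hd (ε d)) = mres (P d) hd (e d) := fun d hd => by
    rw [(D.projIso d).hom.naturality W _ hd le_rfl]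
    exact congrArg (mres (P d) hd) congr(($((D.projIso d).inv_hom_id)).app (c.U d) le_rfl (e d))
  have hcomp := congr(($(D.proj_comp_θ b a)).app W
    (le_inf (h.trans inf_le_right) (h.trans inf_le_left))
      (mres D.glued (h.trans inf_le_right) (ε b)))
  rw [(D.projIso a).hom.map_smul, hproj a]
  refine Eq.trans ?_ hcomp
  show _ = (θ b a).hom.app W (le_inf (h.trans inf_le_right) (h.trans inf_le_left))
    ((D.projIso b).hom.app W (h.trans inf_le_right) (mres D.glued (h.trans inf_le_right) (ε b)))
  rw [hproj b, hθ b a W (le_inf (h.trans inf_le_right) (h.trans inf_le_left))]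

/-- The structure sheaf has trivial class. -/
theorem ofModules_unit :
    ofModules (SheafOfModules.unit X.ringCatSheaf) (Scheme.Modules.isInvertible_unit X) = 0 := by
  have hgen : IsGen (oMod X) ⊤ (oSec 1) := fun W h => by
    have h1 : (fun a : Γ(X, W) => a • mres (oMod X) h (oSec 1)) = oSec := funext fun a => by
      show oSec (a * rres X h 1) = oSec a
      rw [map_one, mul_one]
    rw [h1]
    exact Function.bijective_iff_has_inverse.2 ⟨oFun, fun _ => rfl, fun _ => rfl⟩
  let F : Frame (oMod X) := ⟨PUnit, fun _ => ⊤, iSup_const, fun _ => oSec 1, fun _ => hgen⟩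
  refine (ofModules_eq_mk _ F).trans ?_
  refine (mk_eq_mk_of_refine (Coc.trivial X) F.coc (fun _ => PUnit.unit) (fun _ => le_rfl)
    fun a b W h h' => ?_).symm
  refine Units.ext (F.g_unique a b h ?_).symm
  rw [Coc.ures_trivial_g, Units.val_one, one_smul]

/-- The class of a pull-back sheaf is the pull-back of the class. -/
theorem map_ofModules (φ : Y ⟶ X) (M : X.Modules) (hM : Scheme.Modules.IsInvertible M) :
    map φ (ofModules M hM) = ofModules ((Scheme.Modules.pullback φ).obj M) (hM.pullback φ) := by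
  obtain ⟨F⟩ := exists_frame hM
  let F' : Frame ((Scheme.Modules.pullback φ).obj M) :=
    ⟨F.ι, fun a => φ ⁻¹ᵁ F.U a, by rw [← φ.preimage_iSup, F.covers]; rfl,
      fun a => pullSec φ M (F.U a) (F.e a), fun a => (F.gen a).pullSec φ hM⟩
  rw [ofModules_eq_mk hM F, ofModules_eq_mk _ F', map_mk]
  refine mk_eq_mk_of_refine (F.coc.comap φ) F'.coc (fun a => a) (fun _ => le_rfl)
    fun a b W h h' => ?_
  refine Units.ext (F'.g_unique a b h ?_).symm
  rw [Coc.ures_comap_g]
  have hW : W ≤ φ ⁻¹ᵁ (F.U a ⊓ F.U b) := h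
  show φ.appLE _ W hW (F.g a b : Γ(X, F.U a ⊓ F.U b)) • mres _ _ (pullSec φ M (F.U a) (F.e a)) =
    mres _ _ (pullSec φ M (F.U b) (F.e b))
  have h1 := congrArg (fun z => mres ((Scheme.Modules.pullback φ).obj M) hW (pullSec φ M _ z))
    (F.g_spec a b le_rfl)
  simp only [pullSec_smul, pullSec_mres, mres_smul, mres_mres] at h1
  convert h1 using 2
  rw [res_self]
  show _ = (φ.app _ ≫ Y.presheaf.map (homOfLE hW).op) (F.g a b : Γ(X, F.U a ⊓ F.U b))
  rfl

end Pic

end Fermat.Agent.AbVar

end
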